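import Mathlib
import Fermat.Agent.LT.T3.R.Spec
import Fermat.Agent.LT.T6.H830.HCClosed3
import Fermat.Agent.LT.T6.H698.SphCKernel

/-!
# Row LT, tower T7, node T7.L2Q.1.H2a.A.0b.M `StepMDatQC87` (registry row 3188), DOWNSTAIRS:
# THE SPECTRAL STEP AT THE REAL PLACE (helper842, ASSET)

OFF-MAIN.  Complete proofs, nothing assumed.  ADDITIVE (new names only, suffix `842`, namespace
`Fermat.Agent.LT.T7.H842S`).  LOCAL, `GL₂(ℝ)` only.  On the CLOSED machinery of tower T6: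
`H830.hcTransRC830` (the spherical transform in the weights `0, ±1` is the Mellin transform of
the Harish-Chandra transform) and `H698.sphCKernelC698`.

    specStepR842 : IsArchTestR n F → IsArchTestR n F₂ → HasAbelNR F β →
        HasAbelNR F₂ (segAvg842 d β) →
        ∀ s, sphTransR μ n F₂ s = 4π · sphC (2 s) (cosh d) · sphTransR μ n F s

`segAvg842 d β (X) = (2π / sinh d) ∫_{-d}^{d} β(X₁ + a, X₂ - a) da`: the `N`-integral downstairs
after the step `M_{w,d}` (re-synthesis), in the halfQ form `segAvg842 d (halfQ c β') =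
halfQ c (sphAbel d β')`, `sphAbel d β' (X) = (4π / sinh d) ∫_{-d/2}^{d/2} β'(X₁ + a, X₂ - a) da`
the Abel transform upstairs of the sphere mean (helper132, helper288): `segAvg_half842`.

Proof.  `hcR F ζ r = e^{-r/2} β((ζ+r)/2, (ζ-r)/2)` (`hcR_of_hasAbelNR842`), so
`melR F s = ∫∫ e^{rs} β((ζ+r)/2, (ζ-r)/2) dr dζ`; for fixed `ζ` Fubini on `ℝ × [-d, d]` and the
translation `r ↦ r - 2a`: the inner integral is multiplied by
`(2π / sinh d) ∫_{-d}^{d} e^{-2as} da = 4π sphC (2s) (cosh d)`.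
-/

set_option autoImplicit false
set_option linter.style.haveILetI false
set_option linter.unusedVariables false

open MeasureTheory

noncomputable section

namespace Fermat.Agent.LT.T7.H842S

open Fermat.Agent.LT Fermat.Agent.LT.T6

/-! ## 1. The segment average -/

/-- `(2π / sinh d) ∫_{-d}^{d} β(X₁ + a, X₂ - a) da`. -/
def segAvg842 (d : ℝ) (β : ℝ × ℝ → ℂ) : ℝ × ℝ → ℂ :=
  fun X => ((2 * Real.pi / Real.sinh d : ℝ) : ℂ) * ∫ a in (-d)..d, β (X.1 + a, X.2 - a)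

/-- The halfQ form: the segment average of `c β'(·/2)` is `c · (sphAbel d β')(·/2)`, where
`sphAbel d β' (X) = (4π / sinh d) ∫_{-d/2}^{d/2} β'(X₁ + a, X₂ - a) da`. -/
theorem segAvg_half842 (d : ℝ) (c : ℂ) (β' : ℝ × ℝ → ℂ) (X : ℝ × ℝ) :
    segAvg842 d (fun p => c * β' ((2 : ℝ)⁻¹ • p)) X
      = c * (((4 * Real.pi / Real.sinh d : ℝ) : ℂ)
          * ∫ a in (-(d / 2))..(d / 2), β' (((2 : ℝ)⁻¹ • X).1 + a, ((2 : ℝ)⁻¹ • X).2 - a)) := by
  unfold segAvg842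
  have h1 : (∫ a in (-d)..d, (fun p : ℝ × ℝ => c * β' ((2 : ℝ)⁻¹ • p)) (X.1 + a, X.2 - a))
      = c * ∫ a in (-d)..d, β' ((2 : ℝ)⁻¹ * X.1 + (2 : ℝ)⁻¹ * a, (2 : ℝ)⁻¹ * X.2 - (2 : ℝ)⁻¹ * a) := by
    rw [← intervalIntegral.integral_const_mul]
    refine intervalIntegral.integral_congr fun a _ => ?_
    show c * β' ((2 : ℝ)⁻¹ • (X.1 + a, X.2 - a)) = _
    congr 2
    ext
    · show (2 : ℝ)⁻¹ * (X.1 + a) = _
      ring
    · show (2 : ℝ)⁻¹ * (X.2 - a) = _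
      ring
  have h2 : (∫ a in (-d)..d,
        β' ((2 : ℝ)⁻¹ * X.1 + (2 : ℝ)⁻¹ * a, (2 : ℝ)⁻¹ * X.2 - (2 : ℝ)⁻¹ * a))
      = (2 : ℝ) • ∫ a in (-(d / 2))..(d / 2), β' ((2 : ℝ)⁻¹ * X.1 + a, (2 : ℝ)⁻¹ * X.2 - a) := by
    have h := intervalIntegral.integral_comp_mul_left
      (a := -d) (b := d) (fun a : ℝ => β' ((2 : ℝ)⁻¹ * X.1 + a, (2 : ℝ)⁻¹ * X.2 - a))
      (c := (2 : ℝ)⁻¹) (by norm_num)
    rw [h, inv_inv]
    congr 2 <;> ring
  rw [h1, h2, Complex.real_smul]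
  show _ = c * (_ * ∫ a in (-(d / 2))..(d / 2), β' ((2 : ℝ)⁻¹ * X.1 + a, (2 : ℝ)⁻¹ * X.2 - a))
  push_cast
  ring

/-! ## 2. The Harish-Chandra transform in terms of the `N`-integral -/

theorem bR_eq_upperGL842 (ζ r x : ℝ) (c₁ c₂ : ℝˣ)
    (h1 : (c₁ : ℝ) = Real.exp ((ζ + r) / 2)) (h2 : (c₂ : ℝ) = Real.exp ((ζ - r) / 2)) :
    H830.bR ζ r x = T3.AS.upperGL c₁ c₂ (Real.exp ((ζ + r) / 2) * x) := by
  apply Units.ext
  show (!![Real.exp ((ζ + r) / 2), Real.exp ((ζ + r) / 2) * x; 0, Real.exp ((ζ - r) / 2)] :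
      Matrix (Fin 2) (Fin 2) ℝ)
    = !![(c₁ : ℝ), Real.exp ((ζ + r) / 2) * x; 0, (c₂ : ℝ)]
  rw [h1, h2]

/-- `hcR F ζ r = e^{-r/2} β((ζ + r)/2, (ζ - r)/2)`. -/
theorem hcR_of_hasAbelNR842 {F : GL (Fin 2) ℝ → ℂ} {β : ℝ × ℝ → ℂ}
    (hF : T3.R.HasAbelNR F β) (ζ r : ℝ) :
    H830.hcR F ζ r = ((Real.exp (-(r / 2)) : ℝ) : ℂ) * β ((ζ + r) / 2, (ζ - r) / 2) := by
  have ha : Real.exp ((ζ + r) / 2) ≠ 0 := Real.exp_ne_zero _
  have hb : Real.exp ((ζ - r) / 2) ≠ 0 := Real.exp_ne_zero _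
  have hN := hF (Units.mk0 _ ha) (Units.mk0 _ hb) (Real.exp_pos _) (Real.exp_pos _)
  simp only [Units.val_mk0, Real.log_exp] at hN
  unfold H830.hcR
  have e : (fun x : ℝ => F (H830.bR ζ r x))
      = fun x : ℝ => (fun y : ℝ => F (T3.AS.upperGL (Units.mk0 _ ha) (Units.mk0 _ hb) y))
          (Real.exp ((ζ + r) / 2) * x) := by
    funext x
    rw [bR_eq_upperGL842 ζ r x (Units.mk0 _ ha) (Units.mk0 _ hb) rfl rfl]
  rw [e, Measure.integral_comp_mul_left
    (fun y : ℝ => F (T3.AS.upperGL (Units.mk0 _ ha) (Units.mk0 _ hb) y)) (Real.exp ((ζ + r) / 2)),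
    hN, Complex.real_smul, ← mul_assoc, ← Complex.ofReal_mul]
  congr 2
  rw [abs_of_pos (inv_pos.2 (Real.exp_pos _)), ← Real.exp_add, Real.sqrt_eq_rpow,
    ← Real.exp_mul, ← Real.exp_neg, ← Real.exp_add]
  congr 1
  ring

/-! ## 3. Fubini on `ℝ × [-d, d]` and the translation -/

/-- Fubini for `(r, a) ↦ g(r) B(r + 2a)` on `ℝ × [-d, d]`. -/
theorem swap_seg842 (g B : ℝ → ℂ) (hg : Continuous g) (hB : Continuous B) (R : ℝ)
    (hR : ∀ r : ℝ, R < |r| → B r = 0) (d : ℝ) (hd : 0 ≤ d) :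
    (∫ r : ℝ, ∫ a in (-d)..d, g r * B (r + 2 * a))
      = ∫ a in (-d)..d, ∫ r : ℝ, g r * B (r + 2 * a) := by
  have hle : -d ≤ d := by linarith
  have hH : Continuous (fun p : ℝ × ℝ => g p.1 * B (p.1 + 2 * p.2)) := by fun_prop
  have h1 : IntegrableOn (fun p : ℝ × ℝ => g p.1 * B (p.1 + 2 * p.2))
      (Set.Icc (-(R + 2 * d)) (R + 2 * d) ×ˢ Set.Icc (-d) d)
      ((volume : Measure ℝ).prod (volume : Measure ℝ)) :=
    hH.continuousOn.integrableOn_compact (isCompact_Icc.prod isCompact_Icc)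
  have h2 : IntegrableOn (fun p : ℝ × ℝ => g p.1 * B (p.1 + 2 * p.2))
      (Set.univ ×ˢ Set.Ioc (-d) d) ((volume : Measure ℝ).prod (volume : Measure ℝ)) := by
    refine h1.of_forall_sdiff_eq_zero (MeasurableSet.univ.prod measurableSet_Ioc) ?_
    rintro ⟨r, a⟩ ⟨⟨-, ha⟩, hna⟩
    have ha' : a ∈ Set.Icc (-d) d := ⟨ha.1.le, ha.2⟩
    have hr : r ∉ Set.Icc (-(R + 2 * d)) (R + 2 * d) := fun hr => hna ⟨hr, ha'⟩
    have hBz : B (r + 2 * a) = 0 := by
      apply hR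
      by_contra hcon
      rw [not_lt] at hcon
      apply hr
      have h3 := abs_le.1 hcon
      constructor
      · linarith [ha'.1, ha'.2, h3.1, h3.2]
      · linarith [ha'.1, ha'.2, h3.1, h3.2]
    show g r * B (r + 2 * a) = 0
    rw [hBz, mul_zero]
  have h3 : ((volume : Measure ℝ).prod ((volume : Measure ℝ).restrict (Set.Ioc (-d) d)))
      = ((volume : Measure ℝ).prod (volume : Measure ℝ)).restrict
          (Set.univ ×ˢ Set.Ioc (-d) d) := by
    rw [← Measure.prod_restrict, Measure.restrict_univ]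
  have hint : Integrable (Function.uncurry fun (r a : ℝ) => g r * B (r + 2 * a))
      ((volume : Measure ℝ).prod ((volume : Measure ℝ).restrict (Set.Ioc (-d) d))) := by
    rw [h3]
    exact h2
  have hsw := integral_integral_swap (μ := (volume : Measure ℝ))
    (ν := (volume : Measure ℝ).restrict (Set.Ioc (-d) d))
    (f := fun (r a : ℝ) => g r * B (r + 2 * a)) hint
  simp only [intervalIntegral.integral_of_le hle]
  exact hsw

/-- The translation `r ↦ r - 2a` for `g(r) = e^{rs}`. -/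
theorem translate_exp842 (s : ℂ) (B : ℝ → ℂ) (a : ℝ) :
    (∫ r : ℝ, Complex.exp ((r : ℂ) * s) * B (r + 2 * a))
      = Complex.exp (-((a : ℂ) * (2 * s))) * ∫ r : ℝ, Complex.exp ((r : ℂ) * s) * B r := by
  have h := integral_add_right_eq_self (μ := (volume : Measure ℝ))
    (fun r : ℝ => Complex.exp (((r : ℂ) - 2 * (a : ℂ)) * s) * B r) (2 * a)
  have e1 : (fun r : ℝ => Complex.exp ((r : ℂ) * s) * B (r + 2 * a))
      = fun r : ℝ =>
          (fun r : ℝ => Complex.exp (((r : ℂ) - 2 * (a : ℂ)) * s) * B r) (r + 2 * a) := by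
    funext r
    show _ = Complex.exp ((((r + 2 * a : ℝ) : ℂ) - 2 * (a : ℂ)) * s) * B (r + 2 * a)
    congr 2
    push_cast
    ring
  have e2 : (fun r : ℝ => Complex.exp (((r : ℂ) - 2 * (a : ℂ)) * s) * B r)
      = fun r : ℝ => Complex.exp (-((a : ℂ) * (2 * s))) * (Complex.exp ((r : ℂ) * s) * B r) := by
    funext r
    rw [← mul_assoc, ← Complex.exp_add]
    congr 2
    ring
  rw [e1, h, e2, integral_const_mul]

/-- `∫_{-d}^{d} e^{-a (2s)} da = 2 sphC (2s) (cosh d) sinh d`. -/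
theorem integral_exp_seg842 (s : ℂ) (d : ℝ) (hd : 0 ≤ d) :
    (∫ a in (-d)..d, Complex.exp (-((a : ℂ) * (2 * s))))
      = 2 * (sphC (2 * s) (Real.cosh d) * ((Real.sinh d : ℝ) : ℂ)) := by
  have hk := H698.sphCKernelC698 (2 * s) d hd
  rw [hk]
  have h := intervalIntegral.integral_comp_neg (a := -d) (b := d)
    (fun ρ : ℝ => Complex.exp ((ρ : ℂ) * (2 * s)))
  simp only [neg_neg] at h
  have e : (∫ a in (-d)..d, Complex.exp (-((a : ℂ) * (2 * s))))
      = ∫ x in (-d)..d, Complex.exp (((-x : ℝ) : ℂ) * (2 * s)) := by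
    refine intervalIntegral.integral_congr fun x _ => ?_
    show Complex.exp (-((x : ℂ) * (2 * s))) = Complex.exp (((-x : ℝ) : ℂ) * (2 * s))
    congr 1
    push_cast
    ring
  rw [e, h]
  ring

/-! ## 4. The step -/

/-- The inner integral, for fixed `ζ`. -/
theorem inner_step842 (β : ℝ × ℝ → ℂ) (hβc : Continuous β) (hβs : HasCompactSupport β)
    (d : ℝ) (hd : 0 < d) (s : ℂ) (ζ : ℝ) :
    (∫ r : ℝ, Complex.exp ((r : ℂ) * s) * segAvg842 d β ((ζ + r) / 2, (ζ - r) / 2))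
      = 4 * (Real.pi : ℂ) * sphC (2 * s) (Real.cosh d)
          * ∫ r : ℝ, Complex.exp ((r : ℂ) * s) * β ((ζ + r) / 2, (ζ - r) / 2) := by
  have hBc : Continuous (fun r : ℝ => β ((ζ + r) / 2, (ζ - r) / 2)) :=
    hβc.comp (by fun_prop)
  obtain ⟨R, hR⟩ : ∃ R : ℝ, ∀ r : ℝ, R < |r| → (fun r : ℝ => β ((ζ + r) / 2, (ζ - r) / 2)) r = 0 := by
    obtain ⟨R0, hR0⟩ := hβs.isCompact.isBounded.subset_closedBall (0 : ℝ × ℝ)
    refine ⟨2 * R0, fun r hr => ?_⟩
    by_contra hne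
    have hmem : ((ζ + r) / 2, (ζ - r) / 2) ∈ tsupport β := subset_tsupport _ hne
    have hb := hR0 hmem
    rw [mem_closedBall_zero_iff, Prod.norm_def] at hb
    have h1 : |(ζ + r) / 2| ≤ R0 := le_trans (le_max_left _ _) hb
    have h2 : |(ζ - r) / 2| ≤ R0 := le_trans (le_max_right _ _) hb
    have h3 : |r| ≤ 2 * R0 :=
      calc |r| = |(ζ + r) / 2 - (ζ - r) / 2| := by congr 1; ring
        _ ≤ |(ζ + r) / 2| + |(ζ - r) / 2| := abs_sub _ _
        _ ≤ 2 * R0 := by linarith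
    linarith
  have hsinh : Real.sinh d ≠ 0 := (Real.sinh_pos_iff.2 hd).ne'
  have e1 : (fun r : ℝ => Complex.exp ((r : ℂ) * s) * segAvg842 d β ((ζ + r) / 2, (ζ - r) / 2))
      = fun r : ℝ => ((2 * Real.pi / Real.sinh d : ℝ) : ℂ)
          * ∫ a in (-d)..d, Complex.exp ((r : ℂ) * s)
              * (fun r : ℝ => β ((ζ + r) / 2, (ζ - r) / 2)) (r + 2 * a) := by
    funext r
    unfold segAvg842
    rw [intervalIntegral.integral_const_mul, ← mul_assoc, ← mul_assoc,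
      mul_comm (Complex.exp ((r : ℂ) * s))]
    congr 1
    refine intervalIntegral.integral_congr fun a _ => ?_
    show β ((ζ + r) / 2 + a, (ζ - r) / 2 - a) = β ((ζ + (r + 2 * a)) / 2, (ζ - (r + 2 * a)) / 2)
    congr 2 <;> ring
  rw [e1, integral_const_mul,
    swap_seg842 (fun r : ℝ => Complex.exp ((r : ℂ) * s))
      (fun r : ℝ => β ((ζ + r) / 2, (ζ - r) / 2)) (by fun_prop) hBc R hR d hd.le]
  have e2 : (∫ a in (-d)..d, ∫ r : ℝ, Complex.exp ((r : ℂ) * s)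
        * (fun r : ℝ => β ((ζ + r) / 2, (ζ - r) / 2)) (r + 2 * a))
      = ∫ a in (-d)..d, Complex.exp (-((a : ℂ) * (2 * s)))
          * ∫ r : ℝ, Complex.exp ((r : ℂ) * s) * β ((ζ + r) / 2, (ζ - r) / 2) := by
    refine intervalIntegral.integral_congr fun a _ => ?_
    exact translate_exp842 s (fun r : ℝ => β ((ζ + r) / 2, (ζ - r) / 2)) a
  rw [e2, intervalIntegral.integral_mul_const, integral_exp_seg842 s d hd.le]
  have hs : ((Real.sinh d : ℝ) : ℂ) ≠ 0 := Complex.ofReal_ne_zero.2 hsinh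
  have hc : ((2 * Real.pi / Real.sinh d : ℝ) : ℂ)
      = 2 * (Real.pi : ℂ) / ((Real.sinh d : ℝ) : ℂ) := by
    rw [Complex.ofReal_div, Complex.ofReal_mul]
    norm_num
  rw [hc]
  generalize ((Real.sinh d : ℝ) : ℂ) = σ at hs ⊢
  field_simp
  ring

/-- The Mellin transform of the Harish-Chandra transform after the step. -/
theorem melR_step842 {F F₂ : GL (Fin 2) ℝ → ℂ} {β : ℝ × ℝ → ℂ} (hβc : Continuous β)
    (hβs : HasCompactSupport β) (d : ℝ) (hd : 0 < d)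
    (hF : T3.R.HasAbelNR F β) (hF₂ : T3.R.HasAbelNR F₂ (segAvg842 d β)) (s : ℂ) :
    H830.melR F₂ s
      = 4 * (Real.pi : ℂ) * sphC (2 * s) (Real.cosh d) * H830.melR F s := by
  unfold H830.melR
  rw [← integral_const_mul]
  refine integral_congr_ae (Filter.Eventually.of_forall fun ζ => ?_)
  show (∫ r : ℝ, Complex.exp ((r : ℂ) * (s + 1 / 2)) * H830.hcR F₂ ζ r)
    = 4 * (Real.pi : ℂ) * sphC (2 * s) (Real.cosh d)
        * ∫ r : ℝ, Complex.exp ((r : ℂ) * (s + 1 / 2)) * H830.hcR F ζ r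
  have e : ∀ (G : GL (Fin 2) ℝ → ℂ) (γ : ℝ × ℝ → ℂ), T3.R.HasAbelNR G γ →
      (fun r : ℝ => Complex.exp ((r : ℂ) * (s + 1 / 2)) * H830.hcR G ζ r)
        = fun r : ℝ => Complex.exp ((r : ℂ) * s) * γ ((ζ + r) / 2, (ζ - r) / 2) := by
    intro G γ hG
    funext r
    rw [hcR_of_hasAbelNR842 hG, ← mul_assoc]
    congr 1
    rw [Complex.ofReal_exp, ← Complex.exp_add]
    congr 1
    push_cast
    ring
  rw [e F₂ _ hF₂, e F β hF]
  exact inner_step842 β hβc hβs d hd s ζ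

/-- **THE SPECTRAL STEP AT THE REAL PLACE.**  If the `N`-integral of `F₂` is the segment average
of the `N`-integral of `F` (both test functions of weight `n ∈ {0, ±1}`), then the spherical
transform of `F₂` is `4π sphC (2s) (cosh d)` times the spherical transform of `F`. -/
theorem specStepR842 (μ : @Measure (GL (Fin 2) ℝ) (borel _))
    (hμ : @Measure.IsHaarMeasure _ _ _ (borel _) μ) (n : ℤ) (hn : T3.R.IsWt n)
    {F F₂ : GL (Fin 2) ℝ → ℂ} {β : ℝ × ℝ → ℂ} (hβc : Continuous β) (hβs : HasCompactSupport β)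
    (d : ℝ) (hd : 0 < d) (hFt : IsArchTestR n F) (hF₂t : IsArchTestR n F₂)
    (hF : T3.R.HasAbelNR F β) (hF₂ : T3.R.HasAbelNR F₂ (segAvg842 d β)) (s : ℂ) :
    sphTransR μ n F₂ s
      = 4 * (Real.pi : ℂ) * sphC (2 * s) (Real.cosh d) * sphTransR μ n F s := by
  obtain ⟨c, hc, h⟩ := H830.hcTransRC830 μ hμ
  rw [h n hn F₂ hF₂t s, h n hn F hFt s, melR_step842 hβc hβs d hd hF hF₂ s]
  ring

/-! ## Appendix: the equation lemmas of the definitions of this file are realised HERE -/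

theorem eqns_realised_specStepR842 : True := by
  have _a1 := @segAvg842.eq_1
  trivial

end Fermat.Agent.LT.T7.H842S

end
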